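import Fermat.Agent.H21.EsC.Interfaces

/-!
# P-ES / ES-C2-ASM (helper35): Hecke equivariance of the Kummer characters, assembly

`kummerHecke_of_parts : HeckeInputsStatement ℂ → NormRepStatement N → KummerHeckeStatement N`.

From a datum `(D, f, G)` for `(x, χ)` we build the datum
`(α_* β^* D, Norm_α (β f), ∏_x G ∘ α_x)` for `(T_ℓ x, cohTChar χ)`.
-/

set_option autoImplicit false
set_option linter.style.haveILetI false
set_option linter.unusedSectionVars false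

noncomputable section

open AlgebraicCurve CongruenceSubgroup UpperHalfPlane IntermediateField
open scoped MatrixGroups Manifold OnePoint
open ModularCurve ModularCurve.Period
open P2MW.S_ModularForm_heckeT_slash_eq_self_of_mem_Gamma0.ModularForm.HeckeSlashInvariance

namespace Fermat.Agent.H35

open Fermat.Agent.H21 Fermat.Agent.H21.EsC Fermat.Agent.H23.EsA

/-! ### The analytic side: the product of the Hecke translates -/

theorem esc_det_heckeRep_pos (ℓ : ℕ) (x : OnePoint (ZMod ℓ)) :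
    0 < ((heckeRep ℓ x).det : ℝ) := by
  cases x with
  | infty => exact ModularForm.det_heckeDiagMatrix_pos ℓ
  | coe j => exact ModularForm.det_heckeMatrix_pos ℓ j.val

theorem esc_mdiff_heckeProd (ℓ : ℕ) [NeZero ℓ] {G : ℍ → ℂ} (hG : MDiff G) :
    MDiff (heckeProd ℓ G) := by
  classical
  have h1 : ∀ x : OnePoint (ZMod ℓ), MDiff (fun z : ℍ => G (heckeRep ℓ x • z)) := by
    intro x
    exact hG.comp (UpperHalfPlane.mdifferentiable_smul (esc_det_heckeRep_pos ℓ x))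
  have h2 : ∀ s : Finset (OnePoint (ZMod ℓ)),
      MDiff (fun z : ℍ => ∏ x ∈ s, G (heckeRep ℓ x • z)) := by
    intro s
    induction s using Finset.induction_on with
    | empty =>
      simp only [Finset.prod_empty]
      exact mdifferentiable_const
    | insert a s ha ih =>
      simp only [Finset.prod_insert ha]
      exact (h1 a).mul ih
  exact h2 Finset.univ

theorem esc_heckeProd_pow (ℓ : ℕ) [NeZero ℓ] (G : ℍ → ℂ) (m : ℕ) :
    heckeProd ℓ G ^ m = heckeProd ℓ (G ^ m) := by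
  funext z
  simp only [heckeProd, Pi.pow_apply, Finset.prod_pow]

theorem esc_cohTChar_apply (N ℓ : ℕ) (hℓ : ℓ.Prime) (hℓN : ¬ ℓ ∣ N)
    (χ : ↥(Gamma0 N) →* ℂˣ) (γ : ↥(Gamma0 N)) :
    haveI : NeZero ℓ := ⟨hℓ.ne_zero⟩
    ∃ (σ : Equiv.Perm (OnePoint (ZMod ℓ))) (κ : OnePoint (ZMod ℓ) → Gamma0 N),
      (∀ x, heckeRep ℓ x * Matrix.SpecialLinearGroup.mapGL ℝ (γ : SL(2, ℤ))
        = Matrix.SpecialLinearGroup.mapGL ℝ (κ x : SL(2, ℤ)) * heckeRep ℓ (σ x)) ∧
      cohTChar N ℓ hℓ hℓN χ γ = ∏ x, χ (κ x) := by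
  haveI : NeZero ℓ := ⟨hℓ.ne_zero⟩
  haveI : Fact ℓ.Prime := ⟨hℓ⟩
  obtain ⟨σ, κ, hrw, happ⟩ := cohT_apply_exists (N := N) hℓ hℓN γ
  refine ⟨σ, κ, hrw, ?_⟩
  have h := happ (Additive ℂˣ) (MonoidHom.toAdditive χ)
  have h2 : cohTChar N ℓ hℓ hℓN χ γ
      = Additive.toMul (cohT N ℓ hℓ hℓN (Additive ℂˣ) (MonoidHom.toAdditive χ)
          (Additive.ofMul γ)) := rfl
  rw [h2, h, toMul_sum]
  rfl

theorem esc_hasCharacter_heckeProd (N ℓ : ℕ) [NeZero ℓ] (hℓ : ℓ.Prime) (hℓN : ¬ ℓ ∣ N)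
    {G : ℍ → ℂ} {χ : ↥(Gamma0 N) →* ℂˣ} (h : HasCharacter N G χ) :
    HasCharacter N (heckeProd ℓ G) (cohTChar N ℓ hℓ hℓN χ) := by
  intro γ z
  obtain ⟨σ, κ, hrw, happ⟩ := esc_cohTChar_apply N ℓ hℓ hℓN χ γ
  rw [happ]
  simp only [heckeProd]
  have h1 : ∀ x : OnePoint (ZMod ℓ),
      G (heckeRep ℓ x • ((γ : SL(2, ℤ)) • z)) = (χ (κ x) : ℂ) * G (heckeRep ℓ (σ x) • z) := by
    intro x
    have h2 : heckeRep ℓ x • ((γ : SL(2, ℤ)) • z)
        = (κ x : SL(2, ℤ)) • (heckeRep ℓ (σ x) • z) := by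
      have h3 : (γ : SL(2, ℤ)) • z = Matrix.SpecialLinearGroup.mapGL ℝ (γ : SL(2, ℤ)) • z := rfl
      have h4 : (κ x : SL(2, ℤ)) • (heckeRep ℓ (σ x) • z)
          = Matrix.SpecialLinearGroup.mapGL ℝ (κ x : SL(2, ℤ)) • (heckeRep ℓ (σ x) • z) := rfl
      rw [h3, h4, ← mul_smul, ← mul_smul, hrw x]
    rw [h2, h (κ x)]
  rw [Finset.prod_congr rfl (fun x _ => h1 x), Finset.prod_mul_distrib]
  congr 1
  · push_cast
    rfl
  · exact Equiv.prod_comp σ (fun x => G (heckeRep ℓ x • z))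

/-! ### The algebraic side: the divisor of the norm -/

section Algebraic

variable {K F F' : Type*} [Field K] [Field F] [Field F'] [Algebra K F] [Algebra K F']
  [HasPrincipalDivisors K F']

/-- If `div f = m D` then `div (φ f) = m φ^* D`. -/
theorem esc_ord_pullbackAlong (φ : F →ₐ[K] F') (hφ : φ.toRingHom.IsIntegral) (m : ℤ)
    (D : Divisor K F) (f : F) (hf : ∀ v : Place K F, v.ord f = m * D v) (w : Place K F') :
    (m • Divisor.pullbackAlong φ hφ D) w = w.ord (φ f) := by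
  rw [Finsupp.smul_apply, Divisor.pullbackAlong_apply, Place.ord_restrictAlong φ hφ, hf,
    smul_eq_mul]
  ring

/-- If `div f = m D` then `div (Norm_ψ (φ f)) = m ψ_* φ^* D`. -/
theorem esc_ord_norm_correspondence (φ ψ : F →ₐ[K] F') (hφ : φ.toRingHom.IsIntegral)
    (hψ : ψ.toRingHom.IsIntegral) (hfin : FiniteAlong K ψ) (hN : NormFormulaAlong K ψ hfin)
    (m : ℤ) (D : Divisor K F) (f : F) (hf0 : f ≠ 0)
    (hf : ∀ v : Place K F, v.ord f = m * D v) (v : Place K F) :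
    v.ord (letI := algebraAlong ψ; Algebra.norm F (φ f))
      = m * Divisor.correspondence φ ψ hφ hψ D v := by
  letI := algebraAlong ψ
  haveI := isScalarTower_along ψ
  haveI := isIntegral_along ψ hψ
  haveI : Module.Finite F F' := hfin
  have hN' : Divisor.PushforwardNormFormula K F F' := hN
  have hne : φ f ≠ 0 := by
    intro h0
    exact hf0 (φ.toRingHom.injective (h0.trans (map_zero φ.toRingHom).symm))
  have h1 := hN' (φ f) hne (m • Divisor.pullbackAlong φ hφ D)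
    (fun w => esc_ord_pullbackAlong φ hφ m D f hf w) v
  rw [← h1, map_zsmul, Finsupp.smul_apply, smul_eq_mul]
  rfl

theorem esc_norm_ne_zero (φ ψ : F →ₐ[K] F') (hfin : FiniteAlong K ψ) (f : F) (hf0 : f ≠ 0) :
    (letI := algebraAlong ψ; Algebra.norm F (φ f)) ≠ 0 := by
  letI := algebraAlong ψ
  haveI : Module.Finite F F' := hfin
  have hne : φ f ≠ 0 := by
    intro h0
    exact hf0 (φ.toRingHom.injective (h0.trans (map_zero φ.toRingHom).symm))
  exact Algebra.norm_ne_zero_iff.mpr hne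

end Algebraic

/-! ### Assembly -/

/-- **ES-C2-ASM.**  The torsion–character relation intertwines the prelude Hecke operator with
the transfer on characters. -/
theorem kummerHecke_of_parts (N : ℕ) [NeZero N] (h1 : HeckeInputsStatement ℂ)
    (h2 : NormRepStatement N) : KummerHeckeStatement N := by
  intro ℓ _ hℓ hℓN m hm x χ hx
  obtain ⟨hα, hβ, hP, hfin, hFI, hN⟩ := h1 N ℓ hℓ
  haveI := hP
  obtain ⟨D, f, G, hDx, hf0, hord, hG, hrep, hchar⟩ := hx
  rw [heckeOperatorAlong_eq hα hβ hFI hfin hN]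
  refine ⟨Pic0.degZeroCorrespondence (heckeBetaBar ℂ N ℓ) (heckeAlphaBar ℂ N ℓ) hβ hα hFI D,
    (letI := algebraAlong (heckeAlphaBar ℂ N ℓ)
     Algebra.norm ↥(FC N) (heckeBetaBar ℂ N ℓ f)),
    heckeProd ℓ G, ?_, ?_, ?_, ?_, ?_, ?_⟩
  · rw [← hDx]
    rfl
  · exact esc_norm_ne_zero (heckeBetaBar ℂ N ℓ) (heckeAlphaBar ℂ N ℓ) hfin f hf0
  · intro v
    exact esc_ord_norm_correspondence (heckeBetaBar ℂ N ℓ) (heckeAlphaBar ℂ N ℓ) hβ hα hfin hN
      (m : ℤ) (D : Divisor ℂ ↥(FC N)) f hf0 hord v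
  · exact esc_mdiff_heckeProd ℓ hG
  · rw [esc_heckeProd_pow]
    exact h2 ℓ hℓ hℓN f (G ^ m) (hG.pow m) hrep
  · exact esc_hasCharacter_heckeProd N ℓ hℓ hℓN hchar

end Fermat.Agent.H35

end
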